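import Mathlib
import Fermat.Prelude.Def_GroupCohomology_ContinuousUnramified
import Fermat.Agent.H8.InertiaBasic

/-!
# MW-K0: every number field inside `AlgebraicClosure ℚ` is unramified outside a finite set

For a finite-dimensional intermediate field `F` of `AlgebraicClosure ℚ / ℚ` we produce a finite
set `S0` of primes such that, for every prime `q ∉ S0` and every valuation subring `A` of
`AlgebraicClosure ℚ` lying over `q`, the inertia group of `A` fixes `F` pointwise
(`IntermediateField.IsUnramifiedOutside`).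

Proof: pick an integral primitive element `θ`; the finitely many nonzero differences `a - θ`
(`a` a conjugate of `θ`) are algebraic integers, each dividing a nonzero rational integer.
Away from the primes dividing those integers all the differences are units of `A`, while an
inertia element moves `θ` by a non-unit.  Hence inertia fixes `θ`.
-/

set_option autoImplicit false
set_option maxSynthPendingDepth 3

namespace Fermat.Agent.H49.MWK0

open Polynomial

noncomputable section

/-- Elements integral over `ℤ` lie in every valuation subring. -/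
lemma mem_of_isIntegral_int {L : Type*} [Field L] (A : ValuationSubring L) {x : L}
    (hx : IsIntegral ℤ x) : x ∈ A := by
  have h1 : IsIntegral A x := hx.tower_top
  obtain ⟨y, hy⟩ := IsIntegrallyClosed.isIntegral_iff.mp h1
  rw [← hy]
  exact y.2

/-- A nonzero algebraic integer divides (among algebraic integers) a nonzero rational integer. -/
lemma exists_int_mul_eq {L : Type*} [Field L] [CharZero L] {d : L} (hd : IsIntegral ℤ d)
    (h0 : d ≠ 0) : ∃ (c : ℤ) (e : L), c ≠ 0 ∧ IsIntegral ℤ e ∧ d * e = (c : L) := by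
  let _ : Algebra ℚ L := DivisionRing.toRatAlgebra
  have hc : (minpoly ℤ d).coeff 0 ≠ 0 := by
    have h1 : minpoly ℚ d = (minpoly ℤ d).map (algebraMap ℤ ℚ) :=
      minpoly.isIntegrallyClosed_eq_field_fractions' ℚ hd
    have h2 : (minpoly ℚ d).coeff 0 ≠ 0 :=
      minpoly.coeff_zero_ne_zero (hd.tower_top) h0
    intro h
    apply h2
    rw [h1, Polynomial.coeff_map, h, map_zero]
  refine ⟨(minpoly ℤ d).coeff 0, -(aeval d (minpoly ℤ d).divX), hc, ?_, ?_⟩
  · refine IsIntegral.neg ?_
    have hmem : aeval d (minpoly ℤ d).divX ∈ integralClosure ℤ L := by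
      have h := Polynomial.aeval_subalgebra_coe (minpoly ℤ d).divX (integralClosure ℤ L)
        ⟨d, hd⟩
      rw [← h]
      exact (aeval (⟨d, hd⟩ : integralClosure ℤ L) (minpoly ℤ d).divX).2
    exact hmem
  · have h3 : aeval d (minpoly ℤ d) = 0 := minpoly.aeval ℤ d
    have h4 : (minpoly ℤ d).divX * X + C ((minpoly ℤ d).coeff 0) = minpoly ℤ d :=
      Polynomial.divX_mul_X_add _
    rw [← h4] at h3
    simp only [map_add, map_mul, aeval_X, eq_intCast] at h3
    rw [map_intCast] at h3
    linear_combination -h3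

/-- Away from the primes dividing the integer `c`, a divisor `d` of `c` (among algebraic
integers) is a unit of any valuation subring over `q`. -/
lemma not_mem_nonunits_of_mul_eq {L : Type*} [Field L] (A : ValuationSubring L) {q : ℕ}
    (hq : A.LiesOverPrime q) {d e : L} (he : e ∈ A) {c : ℤ}
    (hde : d * e = (c : L)) (hqc : IsCoprime (q : ℤ) c) : d ∉ A.nonunits := by
  intro hd
  have hq' : A.valuation (q : L) < 1 := (ValuationSubring.mem_nonunits_iff (A := A)).1 hq
  have hd' : A.valuation d < 1 := (ValuationSubring.mem_nonunits_iff (A := A)).1 hd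
  have he' : A.valuation e ≤ 1 := (ValuationSubring.valuation_le_one_iff A e).2 he
  have hc' : A.valuation (c : L) < 1 := by
    rw [← hde, map_mul]
    calc A.valuation d * A.valuation e ≤ A.valuation d * 1 := by gcongr
      _ = A.valuation d := mul_one _
      _ < 1 := hd'
  obtain ⟨u, w, huw⟩ := hqc
  have hu : A.valuation ((u : ℤ) : L) ≤ 1 :=
    (ValuationSubring.valuation_le_one_iff A _).2 (intCast_mem A u)
  have hw : A.valuation ((w : ℤ) : L) ≤ 1 :=
    (ValuationSubring.valuation_le_one_iff A _).2 (intCast_mem A w)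
  have h1 : ((u : ℤ) : L) * (q : L) + ((w : ℤ) : L) * (c : L) = 1 := by
    have := congrArg (fun z : ℤ => (z : L)) huw
    simpa using this
  have h2 : A.valuation (((u : ℤ) : L) * (q : L)) < 1 := by
    rw [map_mul]
    calc A.valuation (u : L) * A.valuation (q : L) ≤ 1 * A.valuation (q : L) := by gcongr
      _ = A.valuation (q : L) := one_mul _
      _ < 1 := hq'
  have h3 : A.valuation (((w : ℤ) : L) * (c : L)) < 1 := by
    rw [map_mul]
    calc A.valuation (w : L) * A.valuation (c : L) ≤ 1 * A.valuation (c : L) := by gcongr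
      _ = A.valuation (c : L) := one_mul _
      _ < 1 := hc'
  have h4 := Valuation.map_add_lt A.valuation h2 h3
  rw [h1, map_one] at h4
  exact lt_irrefl _ h4

local notation "Qb" => AlgebraicClosure ℚ

/-- Key lemma: for an algebraic integer `θ` there is a finite set of primes outside of which
every inertia element fixes `θ`. -/
theorem exists_finset_inertia_fixes {θ : Qb} (hθ : IsIntegral ℤ θ) :
    ∃ S0 : Finset Nat.Primes, ∀ q : Nat.Primes, q ∉ S0 →
      ∀ A : ValuationSubring Qb, A.LiesOverPrime (q : ℕ) →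
        ∀ σ ∈ A.inertiaSubgroupIn ℚ, σ θ = θ := by
  classical
  -- the conjugates of θ
  have hθQ : IsIntegral ℚ θ := hθ.tower_top
  set T : Finset Qb := ((minpoly ℚ θ).aroots Qb).toFinset with hT
  have hTint : ∀ a ∈ T, IsIntegral ℤ a := by
    intro a ha
    rw [hT, Multiset.mem_toFinset, mem_aroots] at ha
    refine ⟨minpoly ℤ θ, minpoly.monic hθ, ?_⟩
    have h1 : minpoly ℚ θ = (minpoly ℤ θ).map (algebraMap ℤ ℚ) :=
      minpoly.isIntegrallyClosed_eq_field_fractions' ℚ hθ
    have h2 := ha.2
    rw [h1, aeval_map_algebraMap] at h2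
    rw [← aeval_def]
    exact h2
  have hσT : ∀ σ : Qb ≃ₐ[ℚ] Qb, σ θ ∈ T := by
    intro σ
    rw [hT, Multiset.mem_toFinset, mem_aroots]
    refine ⟨minpoly.ne_zero hθQ, ?_⟩
    have : aeval (σ θ) (minpoly ℚ θ) = σ (aeval θ (minpoly ℚ θ)) := by
      rw [← AlgEquiv.coe_toAlgHom σ, Polynomial.aeval_algHom_apply]
    rw [this, minpoly.aeval, map_zero]
  -- for each conjugate `a ≠ θ`, choose an integer multiple of `a - θ`
  have hex : ∀ a : Qb, ∃ (c : ℤ) (e : Qb), c ≠ 0 ∧
      (a ∈ T → a ≠ θ → IsIntegral ℤ e ∧ (a - θ) * e = (c : Qb)) := by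
    intro a
    by_cases h : a ∈ T ∧ a ≠ θ
    · obtain ⟨c, e, hc, he, hce⟩ :=
        exists_int_mul_eq ((hTint a h.1).sub hθ) (sub_ne_zero.2 h.2)
      exact ⟨c, e, hc, fun _ _ => ⟨he, hce⟩⟩
    · exact ⟨1, 0, one_ne_zero, fun h1 h2 => absurd ⟨h1, h2⟩ h⟩
  choose c e hc hce using hex
  set m : ℤ := ∏ a ∈ T, c a with hm
  have hm0 : m ≠ 0 := Finset.prod_ne_zero_iff.2 fun a _ => hc a
  refine ⟨(Finset.subtype Nat.Prime m.natAbs.primeFactors : Finset {p : ℕ // p.Prime}), ?_⟩
  intro q hq A hA σ hσ
  by_contra hne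
  have hqm : ¬ ((q : ℕ) ∣ m.natAbs) := by
    intro hdvd
    apply hq
    refine Finset.mem_subtype.2 ?_
    rw [Nat.mem_primeFactors]
    exact ⟨q.2, hdvd, Int.natAbs_ne_zero.2 hm0⟩
  have hqca : ¬ ((q : ℕ) : ℤ) ∣ c (σ θ) := by
    intro hdvd
    apply hqm
    have h1 : c (σ θ) ∣ m := Finset.dvd_prod_of_mem c (hσT σ)
    have h2 : ((q : ℕ) : ℤ) ∣ m := hdvd.trans h1
    exact Int.natCast_dvd.1 h2
  have hcop : IsCoprime ((q : ℕ) : ℤ) (c (σ θ)) := by
    have hp : Prime ((q : ℕ) : ℤ) := Nat.prime_iff_prime_int.1 q.2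
    exact (Prime.coprime_iff_not_dvd hp).2 hqca
  obtain ⟨he, hmul⟩ := hce (σ θ) (hσT σ) hne
  have hnon : σ θ - θ ∈ A.nonunits :=
    Fermat.Agent.H8.apply_sub_mem_nonunits_of_mem_inertia A hσ (mem_of_isIntegral_int A hθ)
  exact not_mem_nonunits_of_mul_eq A hA (mem_of_isIntegral_int A he) hmul hcop hnon

/-- Same for an arbitrary element of `AlgebraicClosure ℚ`. -/
theorem exists_finset_inertia_fixes' (θ : Qb) :
    ∃ S0 : Finset Nat.Primes, ∀ q : Nat.Primes, q ∉ S0 →
      ∀ A : ValuationSubring Qb, A.LiesOverPrime (q : ℕ) →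
        ∀ σ ∈ A.inertiaSubgroupIn ℚ, σ θ = θ := by
  have halgQ : IsAlgebraic ℚ θ :=
    (AlgebraicClosure.isAlgebraic ℚ).isAlgebraic θ
  have halg : IsAlgebraic ℤ θ := (IsFractionRing.isAlgebraic_iff ℤ ℚ Qb).2 halgQ
  obtain ⟨n, hn, hint⟩ := halg.exists_integral_multiple
  obtain ⟨S0, hS0⟩ := exists_finset_inertia_fixes hint
  refine ⟨S0, fun q hq A hA σ hσ => ?_⟩
  have h1 := hS0 q hq A hA σ hσ
  have hn' : ((n : ℤ) : Qb) ≠ 0 := by exact_mod_cast hn
  have h2 : n • θ = ((n : ℤ) : Qb) * θ := by
    rw [zsmul_eq_mul]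
  rw [h2, map_mul, map_intCast] at h1
  exact mul_left_cancel₀ hn' h1

/-- **MW-K0**: every number field inside `AlgebraicClosure ℚ` is unramified outside a finite set
of primes. -/
theorem exists_isUnramifiedOutside (F : IntermediateField ℚ Qb) (hF : FiniteDimensional ℚ F) :
    ∃ S0 : Finset Nat.Primes, F.IsUnramifiedOutside S0 := by
  have := hF
  obtain ⟨α, hα⟩ :=
    @Field.exists_primitive_element ℚ F _ _ (IntermediateField.algebra' F) _ _
  have hF' : F = IntermediateField.adjoin ℚ {(α : Qb)} := by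
    have h1 := congrArg IntermediateField.lift hα
    rw [IntermediateField.lift_adjoin_simple, IntermediateField.lift_top] at h1
    exact h1.symm
  obtain ⟨S0, hS0⟩ := exists_finset_inertia_fixes' (α : Qb)
  refine ⟨S0, hF, fun q hq A hA => ?_⟩
  rw [← IntermediateField.le_iff_le]
  conv_lhs => rw [hF']
  rw [IntermediateField.adjoin_le_iff]
  intro x hx
  rw [Set.mem_singleton_iff] at hx
  subst hx
  rw [SetLike.mem_coe, IntermediateField.mem_fixedField_iff]
  intro σ hσ
  exact hS0 q hq A hA σ hσ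

/-- Statement form for the MW-K row. -/
theorem mwK0 : ∀ F : IntermediateField ℚ (AlgebraicClosure ℚ), FiniteDimensional ℚ F →
    ∃ S0 : Finset Nat.Primes, F.IsUnramifiedOutside S0 :=
  exists_isUnramifiedOutside

end

end Fermat.Agent.H49.MWK0
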